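import Mathlib.Combinatorics.Nullstellensatz
import Mathlib.RingTheory.MvPolynomial.Homogeneous
import Mathlib.RingTheory.MvPolynomial.WeightedHomogeneous
import Mathlib.LinearAlgebra.Basis.VectorSpace
import Mathlib.Algebra.MvPolynomial.Funext

/-!
# S17 / tower H, tool G3: the interpolation lemma

A function `f : k^σ → k^τ → k` over an infinite field which is, for every fixed second argument,
a homogeneous polynomial of degree `d` in the first one and, for every fixed first argument, a
homogeneous polynomial of degree `e` in the second one, is given by ONE bihomogeneous polynomial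
of bidegree `(d, e)`.

Used to see that the Chow form `R(a, T) = c(a) ∏_{A ∈ Z_a} T(y_A)` (a form of degree `m` in `T`
for every `a`, and by Weil reciprocity a form of degree `m` in `a` for every `T`) is a
polynomial in `(a, T)`, without generic points.

Mathlib-only.

* `exists_nodes` : unisolvent nodes for forms of degree `d`: `p = ∑ u ∈ J, p(u) • l u`
* `exists_decomposition` : `f u a = ∑ w ∈ J, (l w)(u) * (g w)(a)`
* `exists_bihomogeneous` : the polynomial `F` in the variables `σ ⊕ τ`
* `exists_coeff_forms` : the coefficients of `f u ·` are forms of degree `d` in `u`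
-/

set_option autoImplicit false

noncomputable section

namespace Fermat.Agent.S17.H590

open MvPolynomial

variable {k : Type*} [Field k] {σ τ : Type*}

/-- Unisolvent nodes: over an infinite field there are finitely many points `u ∈ J` and forms
`l u` of degree `d` such that every form `p` of degree `d` is `∑ u ∈ J, p(u) • l u`. -/
theorem exists_nodes [Finite σ] [Infinite k] (d : ℕ) :
    ∃ (J : Finset (σ → k)) (l : (σ → k) → MvPolynomial σ k),
      (∀ u, (l u).IsHomogeneous d) ∧
      ∀ p : MvPolynomial σ k, p.IsHomogeneous d → p = ∑ u ∈ J, eval u p • l u := by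
  classical
  cases nonempty_fintype σ
  obtain ⟨S, hS⟩ := Infinite.exists_subset_card_eq k (d + 1)
  let J : Finset (σ → k) := Fintype.piFinset fun _ => S
  let V := homogeneousSubmodule σ k d
  -- evaluation at the nodes
  let E : V →ₗ[k] (J → k) :=
    { toFun := fun p u => eval (u : σ → k) (p : MvPolynomial σ k)
      map_add' := fun p q => by ext u; simp
      map_smul' := fun c p => by ext u; simp [smul_eval] }
  have hE : LinearMap.ker E = ⊥ := by
    rw [LinearMap.ker_eq_bot']
    rintro ⟨p, hp⟩ h
    have hp' : p.IsHomogeneous d := (mem_homogeneousSubmodule _ _).1 hp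
    have : p = 0 := by
      refine eq_zero_of_eval_zero_at_prod_finset p (fun _ => S) (fun i => ?_) fun x hx => ?_
      · calc p.degreeOf i ≤ p.totalDegree := degreeOf_le_totalDegree p i
          _ ≤ d := hp'.totalDegree_le
          _ < S.card := by rw [hS]; exact Nat.lt_succ_self d
      · have := congrFun h ⟨x, Fintype.mem_piFinset.2 hx⟩
        simpa [E] using this
    exact Subtype.ext this
  obtain ⟨g, hg⟩ := LinearMap.exists_leftInverse_of_injective E hE
  refine ⟨J, fun u => if hu : u ∈ J then (g (Pi.single ⟨u, hu⟩ 1) : MvPolynomial σ k) else 0,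
    fun u => ?_, fun p hp => ?_⟩
  · by_cases hu : u ∈ J
    · simp only [hu, dite_true]
      exact (mem_homogeneousSubmodule _ _).1 (g (Pi.single ⟨u, hu⟩ 1)).2
    · simp only [hu, dite_false]
      exact isHomogeneous_zero _ _ _
  · let P : V := ⟨p, (mem_homogeneousSubmodule _ _).2 hp⟩
    have h1 : g (E P) = P := by
      have := congrArg (fun φ : V →ₗ[k] V => φ P) hg
      simpa using this
    have h2 : E P = ∑ u : J, (eval (u : σ → k) p) • (Pi.single u (1 : k) : J → k) := by
      ext u
      simp [E, P, Finset.sum_apply, Pi.single_apply]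
    rw [h2, map_sum] at h1
    simp only [map_smul] at h1
    have h3 := congrArg (Subtype.val : V → MvPolynomial σ k) h1
    simp only [Submodule.coe_sum, Submodule.coe_smul] at h3
    rw [show (P : MvPolynomial σ k) = p from rfl] at h3
    refine h3.symm.trans ?_
    rw [← Finset.sum_coe_sort J]
    refine Finset.sum_congr rfl fun u _ => ?_
    simp [u.2]

/-- The interpolation lemma, decomposition form: a separately homogeneous polynomial function is a
finite sum of products `(form of degree d in u) * (form of degree e in a)`. -/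
theorem exists_decomposition [Finite σ] [Infinite k] (d e : ℕ) (f : (σ → k) → (τ → k) → k)
    (h1 : ∀ a, ∃ p : MvPolynomial σ k, p.IsHomogeneous d ∧ ∀ u, f u a = eval u p)
    (h2 : ∀ u, ∃ q : MvPolynomial τ k, q.IsHomogeneous e ∧ ∀ a, f u a = eval a q) :
    ∃ (J : Finset (σ → k)) (l : (σ → k) → MvPolynomial σ k) (g : (σ → k) → MvPolynomial τ k),
      (∀ w, (l w).IsHomogeneous d) ∧ (∀ w, (g w).IsHomogeneous e) ∧
      ∀ u a, f u a = ∑ w ∈ J, eval u (l w) * eval a (g w) := by
  obtain ⟨J, l, hl, hJ⟩ := exists_nodes (k := k) (σ := σ) d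
  choose g hg hfg using h2
  refine ⟨J, l, g, hl, hg, fun u a => ?_⟩
  obtain ⟨p, hp, hfp⟩ := h1 a
  rw [hfp u]
  conv_lhs => rw [hJ p hp]
  rw [map_sum]
  refine Finset.sum_congr rfl fun w _ => ?_
  rw [smul_eval, ← hfp w, hfg w a, mul_comm]

/-- Renaming variables along `f` turns `(w ∘ f)`-weighted homogeneous polynomials into
`w`-weighted homogeneous ones. -/
theorem isWeightedHomogeneous_rename {R : Type*} [CommSemiring R] {ι κ : Type*} (f : ι → κ)
    (w : κ → ℕ) {φ : MvPolynomial ι R} {m : ℕ} (h : IsWeightedHomogeneous (w ∘ f) φ m) :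
    IsWeightedHomogeneous w (rename f φ) m := by
  classical
  rw [← φ.support_sum_monomial_coeff, map_sum]
  simp_rw [rename_monomial]
  refine IsWeightedHomogeneous.sum _ _ _ fun d hd => ?_
  refine isWeightedHomogeneous_monomial _ _ _ ?_
  have := h (mem_support_iff.1 hd)
  rw [← this]
  simp only [Finsupp.weight_apply]
  rw [Finsupp.sum_mapDomain_index (by simp) (by intro a m n; simp [add_mul])]
  rfl

/-- The interpolation lemma: a function which is separately a form of degree `d` in `u` and a
form of degree `e` in `a` is (the evaluation of) ONE polynomial `F` in the variables `σ ⊕ τ`,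
homogeneous of degree `d` in the first and of degree `e` in the second set of variables. -/
theorem exists_bihomogeneous [Finite σ] [Infinite k] (d e : ℕ) (f : (σ → k) → (τ → k) → k)
    (h1 : ∀ a, ∃ p : MvPolynomial σ k, p.IsHomogeneous d ∧ ∀ u, f u a = eval u p)
    (h2 : ∀ u, ∃ q : MvPolynomial τ k, q.IsHomogeneous e ∧ ∀ a, f u a = eval a q) :
    ∃ F : MvPolynomial (σ ⊕ τ) k,
      IsWeightedHomogeneous (Sum.elim (fun _ => 1) (fun _ => 0) : σ ⊕ τ → ℕ) F d ∧
      IsWeightedHomogeneous (Sum.elim (fun _ => 0) (fun _ => 1) : σ ⊕ τ → ℕ) F e ∧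
      F.IsHomogeneous (d + e) ∧
      ∀ u a, f u a = eval (Sum.elim u a) F := by
  classical
  obtain ⟨J, l, g, hl, hg, hf⟩ := exists_decomposition d e f h1 h2
  refine ⟨∑ w ∈ J, rename Sum.inl (l w) * rename Sum.inr (g w), ?_, ?_, ?_, fun u a => ?_⟩
  · refine IsWeightedHomogeneous.sum _ _ _ fun w _ => ?_
    have h1 : IsWeightedHomogeneous (Sum.elim (fun _ => 1) (fun _ => 0) : σ ⊕ τ → ℕ)
        (rename Sum.inl (l w)) d := isWeightedHomogeneous_rename _ _ (hl w)
    have h2 : IsWeightedHomogeneous (Sum.elim (fun _ => 1) (fun _ => 0) : σ ⊕ τ → ℕ)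
        (rename Sum.inr (g w)) 0 := by
      refine isWeightedHomogeneous_rename _ _ ?_
      intro s _
      simp [Finsupp.weight_apply, Finsupp.sum]
    simpa using h1.mul h2
  · refine IsWeightedHomogeneous.sum _ _ _ fun w _ => ?_
    have h1 : IsWeightedHomogeneous (Sum.elim (fun _ => 0) (fun _ => 1) : σ ⊕ τ → ℕ)
        (rename Sum.inl (l w)) 0 := by
      refine isWeightedHomogeneous_rename _ _ ?_
      intro s _
      simp [Finsupp.weight_apply, Finsupp.sum]
    have h2 : IsWeightedHomogeneous (Sum.elim (fun _ => 0) (fun _ => 1) : σ ⊕ τ → ℕ)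
        (rename Sum.inr (g w)) e := isWeightedHomogeneous_rename _ _ (hg w)
    simpa using h1.mul h2
  · refine IsHomogeneous.sum _ _ _ fun w _ => ?_
    exact ((hl w).rename_isHomogeneous).mul ((hg w).rename_isHomogeneous)
  · rw [hf u a, map_sum]
    refine Finset.sum_congr rfl fun w _ => ?_
    rw [map_mul, eval_rename, eval_rename]
    rfl

/-- Coefficient form of the interpolation lemma: the coefficients (with respect to `a`) of the
form `f u ·` are themselves forms of degree `d` in `u`. -/
theorem exists_coeff_forms [Finite σ] [Finite τ] [Infinite k] (d e : ℕ)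
    (f : (σ → k) → (τ → k) → k)
    (h1 : ∀ a, ∃ p : MvPolynomial σ k, p.IsHomogeneous d ∧ ∀ u, f u a = eval u p)
    (h2 : ∀ u, ∃ q : MvPolynomial τ k, q.IsHomogeneous e ∧ ∀ a, f u a = eval a q) :
    ∃ c : (τ →₀ ℕ) → MvPolynomial σ k, (∀ s, (c s).IsHomogeneous d) ∧
      ∀ (u : σ → k) (q : MvPolynomial τ k), (∀ a, f u a = eval a q) →
        ∀ s, coeff s q = eval u (c s) := by
  classical
  obtain ⟨J, l, g, hl, hg, hf⟩ := exists_decomposition d e f h1 h2
  refine ⟨fun s => ∑ w ∈ J, coeff s (g w) • l w, fun s => ?_, fun u q hq s => ?_⟩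
  · refine IsHomogeneous.sum _ _ _ fun w _ => ?_
    rw [smul_eq_C_mul]
    simpa using (isHomogeneous_C σ (coeff s (g w))).mul (hl w)
  · have hq' : q = ∑ w ∈ J, eval u (l w) • g w := by
      refine MvPolynomial.funext fun a => ?_
      rw [← hq a, hf u a, map_sum]
      refine Finset.sum_congr rfl fun w _ => ?_
      rw [smul_eval]
    rw [hq', coeff_sum, map_sum]
    refine Finset.sum_congr rfl fun w _ => ?_
    rw [coeff_smul, smul_eval, smul_eq_mul, mul_comm]

end Fermat.Agent.S17.H590
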