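import Mathlib.NumberTheory.Height.MvPolynomial
import Fermat.Agent.S17.H500.NullCert
import Fermat.Agent.S17.H590.Interp

/-!
# S17 / tower H, tool A2: LOCAL Nullstellensatz bounds

`Fermat.Agent.S17.H500.exists_certificate` produces, for forms `p j` of degree `N` without common
zero on the cone of a homogeneous ideal `I`, a certificate `∑ j, q (i, j) * p j ≡ X i ^ (M + N)`.
Mathlib turns such a certificate into a GLOBAL height inequality.  Here we prove the LOCAL
statement, for one absolute value `v` at a time, with an explicit constant that is `1` as soon as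
`v` is nonarchimedean and the coefficients of the `q (i, j)` are `v`-integral, and the resulting
statement for a family of absolute values ("`C_v = 1` for almost all `v`").

Mathlib-only (plus `H500/NullCert`).

* `locNorm v x = ⨆ i, v (x i)`
* `polyBound v p` : coefficient sup (nonarchimedean `v`) resp. coefficient sum
* `eval_le_polyBound` : `v (p x) ≤ polyBound v p * locNorm v x ^ N`
* `locNorm_pow_le_of_certificate` : `locNorm v x ^ N ≤ certBound v q * ⨆ j, v (p j x)`
* `exists_local_constants` : the two-sided bound for a family of absolute values, on a cone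
* `exists_local_log_constants` : the same in logarithmic form, `c w ≥ 0`, `c w = 0` a.e.

## Bihomogeneous part

Bihomogeneous polynomials in two sets of variables `σ ⊕ τ` (`IsBihom F d e`), their local bounds,
and the bihomogeneous projective Nullstellensatz certificate with its LOCAL bound:
if the bihomogeneous forms `p j (a, y)` of bidegree `(N₁, N₂)` have no common zero
`(a, y)`, `a ≠ 0`, `y ≠ 0`, `y` on the cone of the homogeneous ideal `I`, then for every absolute
value `v`:  `|a|_v ^ N₁ * |y|_v ^ N₂ ≤ C_v * max_j |p j (a, y)|_v`,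
with `C_v = 1` for almost all members `v` of a global family.

* `IsBihom`, `isBihom_iff`, `exists_isBihom` (interpolation lemma in `IsBihom` form)
* `eval_le_of_isBihom` : `v (F (a, y)) ≤ polyBound v F * |a| ^ d * |y| ^ e`
* `exists_bicertificate`, `exists_bicertificate_eval`
* `locNorm_mul_le_of_bicertificate`
* `exists_local_constants_bihom`, `exists_local_log_constants_bihom`
-/

set_option autoImplicit false

noncomputable section

namespace Fermat.Agent.S17.H590

open MvPolynomial

variable {k : Type*} [Field k] {ι ι' : Type*}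

/-- The local sup norm of a vector. -/
def locNorm (v : AbsoluteValue k ℝ) (x : ι → k) : ℝ := ⨆ i, v (x i)

theorem locNorm_nonneg (v : AbsoluteValue k ℝ) (x : ι → k) : 0 ≤ locNorm v x :=
  Real.iSup_nonneg fun _ => v.nonneg _

theorem le_locNorm [Finite ι] (v : AbsoluteValue k ℝ) (x : ι → k) (i : ι) :
    v (x i) ≤ locNorm v x :=
  Finite.le_ciSup (fun j => v (x j)) i

theorem locNorm_le [Finite ι] (v : AbsoluteValue k ℝ) (x : ι → k) {c : ℝ} (hc : 0 ≤ c)
    (h : ∀ i, v (x i) ≤ c) : locNorm v x ≤ c := by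
  rcases isEmpty_or_nonempty ι
  · simpa [locNorm] using hc
  · exact ciSup_le h

theorem locNorm_pos [Finite ι] (v : AbsoluteValue k ℝ) {x : ι → k} (hx : x ≠ 0) :
    0 < locNorm v x := by
  obtain ⟨i, hi⟩ : ∃ i, x i ≠ 0 := by
    by_contra h
    exact hx (funext fun i => not_not.1 fun hi => h ⟨i, hi⟩)
  exact lt_of_lt_of_le (v.pos hi) (le_locNorm v x i)

theorem exists_eq_locNorm [Finite ι] [Nonempty ι] (v : AbsoluteValue k ℝ) (x : ι → k) :
    ∃ i, v (x i) = locNorm v x :=
  exists_eq_ciSup_of_finite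

open Classical in
/-- The local size of a polynomial: the sup of the absolute values of its coefficients if `v`
is nonarchimedean, their sum in general. -/
def polyBound (v : AbsoluteValue k ℝ) (p : MvPolynomial ι k) : ℝ :=
  if IsNonarchimedean v then ⨆ s : p.support, v (coeff s p)
  else ∑ s ∈ p.support, v (coeff s p)

theorem polyBound_nonneg (v : AbsoluteValue k ℝ) (p : MvPolynomial ι k) : 0 ≤ polyBound v p := by
  unfold polyBound
  split_ifs
  · exact Real.iSup_nonneg fun s => v.nonneg _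
  · exact Finset.sum_nonneg fun s _ => v.nonneg _

/-- For a nonarchimedean absolute value, a polynomial with `v`-integral coefficients has
`polyBound ≤ 1`. -/
theorem polyBound_le_one {v : AbsoluteValue k ℝ} (hv : IsNonarchimedean v)
    {p : MvPolynomial ι k} (h : ∀ s, v (coeff s p) ≤ 1) : polyBound v p ≤ 1 := by
  unfold polyBound
  rw [if_pos hv]
  rcases isEmpty_or_nonempty p.support
  · simp
  · exact ciSup_le fun s => h _

/-- Local upper bound for the value of a form. -/
theorem eval_le_polyBound [Finite ι] (v : AbsoluteValue k ℝ) {p : MvPolynomial ι k} {N : ℕ}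
    (hp : p.IsHomogeneous N) (x : ι → k) :
    v (p.eval x) ≤ polyBound v p * locNorm v x ^ N := by
  unfold polyBound
  split_ifs with hv
  · exact hv.eval_mvPolynomial_le hp x
  · exact v.eval_mvPolynomial_le hp x

open Classical in
/-- `1` for nonarchimedean `v`, `n` otherwise: the constant in
`v (∑_{j < n} z j) ≤ sumBound v n * max_j v (z j)`. -/
def sumBound (v : AbsoluteValue k ℝ) (n : ℕ) : ℝ := if IsNonarchimedean v then 1 else n

theorem sumBound_nonneg (v : AbsoluteValue k ℝ) (n : ℕ) : 0 ≤ sumBound v n := by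
  unfold sumBound
  split_ifs
  · exact zero_le_one
  · exact Nat.cast_nonneg n

theorem sumBound_of_isNonarchimedean {v : AbsoluteValue k ℝ} (hv : IsNonarchimedean v) (n : ℕ) :
    sumBound v n = 1 := if_pos hv

theorem abv_sum_le [Fintype ι'] (v : AbsoluteValue k ℝ) (z : ι' → k) {c : ℝ} (hc : 0 ≤ c)
    (h : ∀ j, v (z j) ≤ c) : v (∑ j, z j) ≤ sumBound v (Fintype.card ι') * c := by
  unfold sumBound
  split_ifs with hv
  · rw [one_mul]
    refine (hv.apply_sum_univ_le (l := z)).trans ?_
    rcases isEmpty_or_nonempty ι'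
    · simpa using hc
    · exact ciSup_le h
  · refine (v.sum_le _ _).trans ?_
    calc ∑ j, v (z j) ≤ ∑ _j : ι', c := Finset.sum_le_sum fun j _ => h j
      _ = Fintype.card ι' * c := by simp

/-- The constant of a certificate `q`. -/
def certBound [Fintype ι'] (v : AbsoluteValue k ℝ) (q : ι × ι' → MvPolynomial ι k) : ℝ :=
  sumBound v (Fintype.card ι') * ⨆ a, polyBound v (q a)

theorem certBound_nonneg [Fintype ι'] (v : AbsoluteValue k ℝ) (q : ι × ι' → MvPolynomial ι k) :
    0 ≤ certBound v q :=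
  mul_nonneg (sumBound_nonneg _ _) (Real.iSup_nonneg fun _ => polyBound_nonneg _ _)

/-- If `v` is nonarchimedean and all coefficients of the certificate are `v`-integral, the
constant of the certificate is at most `1`. -/
theorem certBound_le_one [Finite ι] [Fintype ι'] {v : AbsoluteValue k ℝ} (hv : IsNonarchimedean v)
    {q : ι × ι' → MvPolynomial ι k} (h : ∀ a s, v (coeff s (q a)) ≤ 1) : certBound v q ≤ 1 := by
  unfold certBound
  rw [sumBound_of_isNonarchimedean hv, one_mul]
  rcases isEmpty_or_nonempty (ι × ι')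
  · simp
  · exact ciSup_le fun a => polyBound_le_one hv (h a)

/-- **Local Nullstellensatz bound.**  A certificate `∑ j, q (i, j)(x) * p j (x) = x i ^ (M + N)`
gives, for EVERY absolute value `v`, the lower bound
`|x|_v ^ N ≤ certBound v q * max_j |p j (x)|_v`. -/
theorem locNorm_pow_le_of_certificate [Finite ι] [Fintype ι'] (v : AbsoluteValue k ℝ) {M N : ℕ}
    {q : ι × ι' → MvPolynomial ι k} (hq : ∀ a, (q a).IsHomogeneous M)
    (p : ι' → MvPolynomial ι k) {x : ι → k} (hx : x ≠ 0)
    (h : ∀ i, ∑ j, (q (i, j)).eval x * (p j).eval x = x i ^ (M + N)) :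
    locNorm v x ^ N ≤ certBound v q * locNorm v (fun j => (p j).eval x) := by
  have hpos : 0 < locNorm v x := locNorm_pos v hx
  have hne : Nonempty ι := by
    by_contra hemp
    rw [not_nonempty_iff] at hemp
    exact hx (funext fun i => hemp.elim i)
  obtain ⟨i, hi⟩ := exists_eq_locNorm v x
  have hB : ∀ a, polyBound v (q a) ≤ ⨆ a, polyBound v (q a) := fun a =>
    Finite.le_ciSup (fun a => polyBound v (q a)) a
  have hB0 : 0 ≤ ⨆ a, polyBound v (q a) := Real.iSup_nonneg fun _ => polyBound_nonneg _ _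
  set P := locNorm v (fun j => (p j).eval x) with hP
  have hP0 : 0 ≤ P := locNorm_nonneg _ _
  have hterm : ∀ j, v ((q (i, j)).eval x * (p j).eval x) ≤
      (⨆ a, polyBound v (q a)) * locNorm v x ^ M * P := by
    intro j
    rw [v.map_mul]
    have h1 : v ((q (i, j)).eval x) ≤ (⨆ a, polyBound v (q a)) * locNorm v x ^ M :=
      (eval_le_polyBound v (hq _) x).trans
        (mul_le_mul_of_nonneg_right (hB _) (pow_nonneg hpos.le _))
    have h2 : v ((p j).eval x) ≤ P := le_locNorm v (fun j => (p j).eval x) j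
    exact mul_le_mul h1 h2 (v.nonneg _) (mul_nonneg hB0 (pow_nonneg hpos.le _))
  have key : locNorm v x ^ (M + N) ≤
      sumBound v (Fintype.card ι') * ((⨆ a, polyBound v (q a)) * locNorm v x ^ M * P) := by
    have h3 : locNorm v x ^ (M + N) = v (∑ j, (q (i, j)).eval x * (p j).eval x) := by
      rw [h i, v.map_pow, hi]
    rw [h3]
    exact abv_sum_le v _ (mul_nonneg (mul_nonneg hB0 (pow_nonneg hpos.le _)) hP0) hterm
  have hM : 0 < locNorm v x ^ M := pow_pos hpos _
  rw [pow_add] at key
  have key' : locNorm v x ^ M * locNorm v x ^ N ≤ locNorm v x ^ M * (certBound v q * P) := by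
    refine key.trans (le_of_eq ?_)
    unfold certBound
    ring
  exact le_of_mul_le_mul_left key' hM

/-- Local upper bound for a family of forms. -/
theorem locNorm_eval_le [Finite ι] [Finite ι'] (v : AbsoluteValue k ℝ) {N : ℕ}
    {p : ι' → MvPolynomial ι k} (hp : ∀ j, (p j).IsHomogeneous N) (x : ι → k) :
    locNorm v (fun j => (p j).eval x) ≤ (⨆ j, polyBound v (p j)) * locNorm v x ^ N := by
  refine locNorm_le v _ (mul_nonneg (Real.iSup_nonneg fun _ => polyBound_nonneg _ _)
    (pow_nonneg (locNorm_nonneg _ _) _)) fun j => ?_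
  exact (eval_le_polyBound v (hp j) x).trans
    (mul_le_mul_of_nonneg_right (Finite.le_ciSup (fun j => polyBound v (p j)) j)
      (pow_nonneg (locNorm_nonneg _ _) _))

/-! ### Families of absolute values -/

/-- A family of absolute values with the finiteness properties of the set of places of a global
field (or of the set of fixed extensions to `Qbar` of the places of `ℚ`): almost all members are
nonarchimedean, and every element is integral at almost all members. -/
structure IsGlobalFamily {W : Type*} (v : W → AbsoluteValue k ℝ) : Prop where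
  arch_finite : {w | ¬ IsNonarchimedean (v w)}.Finite
  finite_gt_one : ∀ c : k, {w | 1 < v w c}.Finite

/-- For a finite family of polynomials, almost all members of a global family are nonarchimedean
with all coefficients integral. -/
theorem IsGlobalFamily.finite_not_integral {W : Type*} {v : W → AbsoluteValue k ℝ}
    (hv : IsGlobalFamily v) {A : Type*} [Finite A] (r : A → MvPolynomial ι k) :
    {w | ¬ (IsNonarchimedean (v w) ∧ ∀ a s, v w (coeff s (r a)) ≤ 1)}.Finite := by
  classical
  have hfin : (⋃ a : A, ⋃ s ∈ (r a).support, {w | 1 < v w (coeff s (r a))}).Finite :=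
    Set.finite_iUnion fun a => Set.Finite.biUnion (r a).support.finite_toSet
      fun s _ => hv.finite_gt_one _
  refine (hv.arch_finite.union hfin).subset fun w hw => ?_
  simp only [Set.mem_ofPred_eq, not_and, not_forall, not_le] at hw
  by_cases hna : IsNonarchimedean (v w)
  · right
    obtain ⟨a, s, has⟩ := hw hna
    simp only [Set.mem_iUnion, Set.mem_ofPred_eq]
    refine ⟨a, s, ?_, has⟩
    rw [mem_support_iff]
    rintro h0
    rw [h0, map_zero] at has
    exact absurd has (by norm_num)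
  · left
    exact hna

/-- **Local Nullstellensatz bounds on a cone, for a global family.**  If the forms `p j` of
degree `N` have no common zero except the origin on the cone of the homogeneous ideal `I`, then
there are constants `C w ≥ 1`, equal to `1` for almost all `w`, such that for every `w` and every
nonzero `k`-point `x` of the cone
`|x|_w ^ N ≤ C w * max_j |p j (x)|_w`  and  `max_j |p j (x)|_w ≤ C w * |x|_w ^ N`. -/
theorem exists_local_constants {W : Type*} {v : W → AbsoluteValue k ℝ} (hv : IsGlobalFamily v)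
    [Finite ι] [Fintype ι'] (L : Type*) [Field L] [Algebra k L] [IsAlgClosed L]
    (I : Ideal (MvPolynomial ι k)) (hI : H500.HomIdeal I) {N : ℕ}
    (p : ι' → MvPolynomial ι k) (hp : ∀ j, (p j).IsHomogeneous N)
    (h0 : ∀ x : ι → L, (∀ f ∈ I, aeval x f = 0) → (∀ j, aeval x (p j) = 0) → x = 0) :
    ∃ C : W → ℝ, (∀ w, 1 ≤ C w) ∧ {w | C w ≠ 1}.Finite ∧
      ∀ (w : W) (x : ι → k), x ≠ 0 → (∀ f ∈ I, eval x f = 0) →
        locNorm (v w) x ^ N ≤ C w * locNorm (v w) (fun j => (p j).eval x) ∧
        locNorm (v w) (fun j => (p j).eval x) ≤ C w * locNorm (v w) x ^ N := by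
  classical
  obtain ⟨M, q, hq, hcert⟩ := H500.exists_certificate_eval L I hI p hp h0
  refine ⟨fun w => max 1 (max (certBound (v w) q) (⨆ j, polyBound (v w) (p j))),
    fun w => le_max_left _ _, ?_, fun w x hx hxI => ⟨?_, ?_⟩⟩
  · -- finiteness
    have h1 := hv.finite_not_integral q
    have h2 := hv.finite_not_integral p
    refine (h1.union h2).subset fun w hw => ?_
    simp only [Set.mem_ofPred_eq] at hw
    by_contra hcon
    simp only [Set.mem_union, Set.mem_ofPred_eq, not_or, not_not] at hcon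
    obtain ⟨⟨hna, hq1⟩, ⟨-, hp1⟩⟩ := hcon
    apply hw
    refine max_eq_left (max_le (certBound_le_one hna hq1) ?_)
    rcases isEmpty_or_nonempty ι'
    · simp
    · exact ciSup_le fun j => polyBound_le_one hna (hp1 j)
  · refine (locNorm_pow_le_of_certificate (v w) hq p hx (hcert x hxI)).trans ?_
    exact mul_le_mul_of_nonneg_right ((le_max_left _ _).trans (le_max_right _ _))
      (locNorm_nonneg _ _)
  · refine (locNorm_eval_le (v w) hp x).trans ?_
    exact mul_le_mul_of_nonneg_right ((le_max_right _ _).trans (le_max_right _ _))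
      (pow_nonneg (locNorm_nonneg _ _) _)

/-- Logarithmic form of `exists_local_constants`: constants `c w ≥ 0`, zero for almost all `w`,
with `|log max_j |p j (x)|_w - N log |x|_w| ≤ c w` on the cone. -/
theorem exists_local_log_constants {W : Type*} {v : W → AbsoluteValue k ℝ}
    (hv : IsGlobalFamily v)
    [Finite ι] [Fintype ι'] (L : Type*) [Field L] [Algebra k L] [IsAlgClosed L]
    (I : Ideal (MvPolynomial ι k)) (hI : H500.HomIdeal I) {N : ℕ}
    (p : ι' → MvPolynomial ι k) (hp : ∀ j, (p j).IsHomogeneous N)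
    (h0 : ∀ x : ι → L, (∀ f ∈ I, aeval x f = 0) → (∀ j, aeval x (p j) = 0) → x = 0) :
    ∃ c : W → ℝ, (∀ w, 0 ≤ c w) ∧ {w | c w ≠ 0}.Finite ∧
      ∀ (w : W) (x : ι → k), x ≠ 0 → (∀ f ∈ I, eval x f = 0) →
        0 < locNorm (v w) (fun j => (p j).eval x) ∧
        |Real.log (locNorm (v w) (fun j => (p j).eval x)) - N * Real.log (locNorm (v w) x)|
          ≤ c w := by
  obtain ⟨C, hC1, hCfin, hC⟩ := exists_local_constants hv L I hI p hp h0
  refine ⟨fun w => Real.log (C w), fun w => Real.log_nonneg (hC1 w), ?_, fun w x hx hxI => ?_⟩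
  · refine hCfin.subset fun w hw => ?_
    simp only [Set.mem_ofPred_eq] at hw ⊢
    intro h1
    rw [h1, Real.log_one] at hw
    exact hw rfl
  · obtain ⟨hlow, hupp⟩ := hC w x hx hxI
    have hCpos : 0 < C w := lt_of_lt_of_le zero_lt_one (hC1 w)
    have hxpos : 0 < locNorm (v w) x := locNorm_pos _ hx
    have hxN : 0 < locNorm (v w) x ^ N := pow_pos hxpos _
    have hPpos : 0 < locNorm (v w) (fun j => (p j).eval x) := by
      by_contra hcon
      have hle : locNorm (v w) (fun j => (p j).eval x) ≤ 0 := not_lt.1 hcon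
      have : locNorm (v w) x ^ N ≤ 0 :=
        hlow.trans (mul_nonpos_of_nonneg_of_nonpos hCpos.le hle)
      exact absurd hxN (not_lt.2 this)
    refine ⟨hPpos, ?_⟩
    have e1 : Real.log (locNorm (v w) x ^ N) = N * Real.log (locNorm (v w) x) := by
      rw [Real.log_pow]
    have l1 := Real.log_le_log hxN hlow
    have l2 := Real.log_le_log hPpos hupp
    rw [Real.log_mul hCpos.ne' hPpos.ne'] at l1
    rw [Real.log_mul hCpos.ne' hxN.ne'] at l2
    rw [e1] at l1 l2
    rw [abs_le]
    constructor <;> linarith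

/-! ## Bihomogeneous polynomials -/

section bihom

variable {R : Type*} [CommSemiring R] {σ τ : Type*}

/-- The bi-weight on the variables `σ ⊕ τ`: the `σ`-variables have weight `(1, 0)`, the
`τ`-variables have weight `(0, 1)`. -/
def biw (σ τ : Type*) : σ ⊕ τ → ℕ × ℕ := Sum.elim (fun _ => (1, 0)) (fun _ => (0, 1))

/-- `F` is bihomogeneous of bidegree `(d, e)`. -/
def IsBihom (F : MvPolynomial (σ ⊕ τ) R) (d e : ℕ) : Prop :=
  IsWeightedHomogeneous (biw σ τ) F (d, e)

theorem weight_biw_fst (s : σ ⊕ τ →₀ ℕ) :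
    (Finsupp.weight (biw σ τ) s).1 =
      Finsupp.weight (Sum.elim (fun _ => 1) (fun _ => 0) : σ ⊕ τ → ℕ) s := by
  simp only [Finsupp.weight_apply, Finsupp.sum, Prod.fst_sum, Prod.smul_fst]
  refine Finset.sum_congr rfl fun i _ => ?_
  rcases i with i | i <;> simp [biw]

theorem weight_biw_snd (s : σ ⊕ τ →₀ ℕ) :
    (Finsupp.weight (biw σ τ) s).2 =
      Finsupp.weight (Sum.elim (fun _ => 0) (fun _ => 1) : σ ⊕ τ → ℕ) s := by
  simp only [Finsupp.weight_apply, Finsupp.sum, Prod.snd_sum, Prod.smul_snd]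
  refine Finset.sum_congr rfl fun i _ => ?_
  rcases i with i | i <;> simp [biw]

theorem isBihom_iff {F : MvPolynomial (σ ⊕ τ) R} {d e : ℕ} :
    IsBihom F d e ↔
      IsWeightedHomogeneous (Sum.elim (fun _ => 1) (fun _ => 0) : σ ⊕ τ → ℕ) F d ∧
      IsWeightedHomogeneous (Sum.elim (fun _ => 0) (fun _ => 1) : σ ⊕ τ → ℕ) F e := by
  constructor
  · intro h
    refine ⟨fun s hs => ?_, fun s hs => ?_⟩
    · rw [← weight_biw_fst, h hs]
    · rw [← weight_biw_snd, h hs]
  · rintro ⟨h1, h2⟩ s hs
    refine Prod.ext ?_ ?_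
    · rw [weight_biw_fst, h1 hs]
    · rw [weight_biw_snd, h2 hs]

theorem IsBihom.mul {F G : MvPolynomial (σ ⊕ τ) R} {d e d' e' : ℕ} (hF : IsBihom F d e)
    (hG : IsBihom G d' e') : IsBihom (F * G) (d + d') (e + e') :=
  IsWeightedHomogeneous.mul hF hG

theorem IsBihom.sum {ι : Type*} (s : Finset ι) (F : ι → MvPolynomial (σ ⊕ τ) R) {d e : ℕ}
    (h : ∀ i ∈ s, IsBihom (F i) d e) : IsBihom (∑ i ∈ s, F i) d e :=
  IsWeightedHomogeneous.sum _ _ _ h

theorem isBihom_zero (d e : ℕ) : IsBihom (0 : MvPolynomial (σ ⊕ τ) R) d e :=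
  isWeightedHomogeneous_zero _ _ _

theorem isBihom_X_inl (i : σ) : IsBihom (X (Sum.inl i) : MvPolynomial (σ ⊕ τ) R) 1 0 :=
  isWeightedHomogeneous_X R (biw σ τ) (Sum.inl i)

theorem isBihom_X_inr (i : τ) : IsBihom (X (Sum.inr i) : MvPolynomial (σ ⊕ τ) R) 0 1 :=
  isWeightedHomogeneous_X R (biw σ τ) (Sum.inr i)

theorem isBihom_rename_inl {p : MvPolynomial σ R} {d : ℕ} (hp : p.IsHomogeneous d) :
    IsBihom (rename Sum.inl p : MvPolynomial (σ ⊕ τ) R) d 0 := by
  rw [isBihom_iff]
  refine ⟨isWeightedHomogeneous_rename _ _ hp, isWeightedHomogeneous_rename _ _ ?_⟩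
  intro s _
  simp [Finsupp.weight_apply, Finsupp.sum]

theorem isBihom_rename_inr {p : MvPolynomial τ R} {e : ℕ} (hp : p.IsHomogeneous e) :
    IsBihom (rename Sum.inr p : MvPolynomial (σ ⊕ τ) R) 0 e := by
  rw [isBihom_iff]
  refine ⟨isWeightedHomogeneous_rename _ _ ?_, isWeightedHomogeneous_rename _ _ hp⟩
  intro s _
  simp [Finsupp.weight_apply, Finsupp.sum]

/-- The interpolation lemma (`exists_bihomogeneous`) with the conclusion in `IsBihom` form. -/
theorem exists_isBihom {k : Type*} [Field k] [Finite σ] [Infinite k] (d e : ℕ)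
    (f : (σ → k) → (τ → k) → k)
    (h1 : ∀ a, ∃ p : MvPolynomial σ k, p.IsHomogeneous d ∧ ∀ u, f u a = eval u p)
    (h2 : ∀ u, ∃ q : MvPolynomial τ k, q.IsHomogeneous e ∧ ∀ a, f u a = eval a q) :
    ∃ F : MvPolynomial (σ ⊕ τ) k, IsBihom F d e ∧ ∀ u a, f u a = eval (Sum.elim u a) F := by
  obtain ⟨F, hF1, hF2, -, hF⟩ := exists_bihomogeneous d e f h1 h2
  exact ⟨F, isBihom_iff.2 ⟨hF1, hF2⟩, hF⟩

/-- The weighted homogeneous component of degree `m + n` of `c * p`, for `p` weighted homogeneous
of degree `n`, is `(component of degree m of c) * p`. -/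
theorem weightedHomogeneousComponent_add_mul {M : Type*} [AddCommMonoid M] [IsCancelAdd M]
    {ι : Type*} (w : ι → M) (m : M) {n : M} (c : MvPolynomial ι R) {p : MvPolynomial ι R}
    (hp : IsWeightedHomogeneous w p n) :
    weightedHomogeneousComponent w (m + n) (c * p) = weightedHomogeneousComponent w m c * p := by
  classical
  ext d
  rw [coeff_weightedHomogeneousComponent, coeff_mul, coeff_mul]
  split_ifs with h
  · refine Finset.sum_congr rfl fun x hx => ?_
    by_cases hx2 : coeff x.2 p = 0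
    · rw [hx2, mul_zero, mul_zero]
    · have h2 : Finsupp.weight w x.2 = n := hp hx2
      have h3 : x.1 + x.2 = d := Finset.mem_antidiagonal.1 hx
      have h4 : Finsupp.weight w x.1 = m := by
        have : Finsupp.weight w x.1 + Finsupp.weight w x.2 = m + n := by
          rw [← map_add, h3, h]
        rw [h2] at this
        exact add_right_cancel this
      rw [coeff_weightedHomogeneousComponent, if_pos h4]
  · symm
    refine Finset.sum_eq_zero fun x hx => ?_
    by_cases hx2 : coeff x.2 p = 0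
    · rw [hx2, mul_zero]
    · have h2 : Finsupp.weight w x.2 = n := hp hx2
      have h3 : x.1 + x.2 = d := Finset.mem_antidiagonal.1 hx
      have h4 : Finsupp.weight w x.1 ≠ m := by
        intro h4
        apply h
        rw [← h3, map_add, h4, h2]
      rw [coeff_weightedHomogeneousComponent, if_neg h4, zero_mul]

/-! ### Local bounds for bihomogeneous polynomials -/

section local_bounds

variable {k : Type*} [Field k]

theorem abv_monomial_le_of_weight [Finite σ] [Finite τ] (v : AbsoluteValue k ℝ) (a : σ → k)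
    (y : τ → k) (s : σ ⊕ τ →₀ ℕ) :
    ∏ i ∈ s.support, v (Sum.elim a y i) ^ s i ≤
      locNorm v a ^ (Finsupp.weight (biw σ τ) s).1 * locNorm v y ^ (Finsupp.weight (biw σ τ) s).2 := by
  have hA := locNorm_nonneg v a
  have hB := locNorm_nonneg v y
  have h1 : ∀ i ∈ s.support, v (Sum.elim a y i) ^ s i ≤
      (locNorm v a ^ (biw σ τ i).1 * locNorm v y ^ (biw σ τ i).2) ^ s i := by
    intro i _
    refine pow_le_pow_left₀ (v.nonneg _) ?_ _
    rcases i with i | i
    · simpa [biw] using le_locNorm v a i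
    · simpa [biw] using le_locNorm v y i
  refine (Finset.prod_le_prod (fun i _ => pow_nonneg (v.nonneg _) _) h1).trans (le_of_eq ?_)
  simp only [mul_pow, Finset.prod_mul_distrib, ← pow_mul, Finset.prod_pow_eq_pow_sum]
  simp only [Finsupp.weight_apply, Finsupp.sum, Prod.fst_sum, Prod.snd_sum, Prod.smul_fst,
    Prod.smul_snd, smul_eq_mul]
  congr 2
  · exact Finset.sum_congr rfl fun i _ => mul_comm _ _
  · exact Finset.sum_congr rfl fun i _ => mul_comm _ _

/-- Local upper bound for the value of a bihomogeneous polynomial. -/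
theorem eval_le_of_isBihom [Finite σ] [Finite τ] (v : AbsoluteValue k ℝ)
    {F : MvPolynomial (σ ⊕ τ) k} {d e : ℕ} (hF : IsBihom F d e) (a : σ → k) (y : τ → k) :
    v (eval (Sum.elim a y) F) ≤ polyBound v F * (locNorm v a ^ d * locNorm v y ^ e) := by
  classical
  have hA := locNorm_nonneg v a
  have hB := locNorm_nonneg v y
  have hAB : 0 ≤ locNorm v a ^ d * locNorm v y ^ e := mul_nonneg (pow_nonneg hA _) (pow_nonneg hB _)
  have hmon : ∀ s ∈ F.support, v (coeff s F * ∏ i ∈ s.support, Sum.elim a y i ^ s i) ≤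
      v (coeff s F) * (locNorm v a ^ d * locNorm v y ^ e) := by
    intro s hs
    rw [v.map_mul, map_prod]
    simp only [map_pow]
    refine mul_le_mul_of_nonneg_left ?_ (v.nonneg _)
    have hw : Finsupp.weight (biw σ τ) s = (d, e) := hF (mem_support_iff.1 hs)
    have := abv_monomial_le_of_weight v a y s
    rwa [hw] at this
  rw [eval_eq]
  unfold polyBound
  split_ifs with hv
  · refine (hv.apply_sum_le).trans ?_
    rcases isEmpty_or_nonempty F.support with hemp | hne
    · rw [Real.iSup_of_isEmpty, Real.iSup_of_isEmpty, zero_mul]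
    · refine ciSup_le fun s => ?_
      refine (hmon s s.2).trans (mul_le_mul_of_nonneg_right ?_ hAB)
      exact Finite.le_ciSup (fun s : F.support => v (coeff (s : σ ⊕ τ →₀ ℕ) F)) s
  · refine (v.sum_le _ _).trans ?_
    rw [Finset.sum_mul]
    exact Finset.sum_le_sum hmon

end local_bounds

/-! ### The bihomogeneous certificate -/

section certificate

variable {k : Type*} [Field k] {ι' : Type*}

attribute [local instance] MvPolynomial.weightedGradedAlgebra

/-- The extension to `k[a, y]` of a homogeneous ideal of `k[y]`. -/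
def extIdeal (σ : Type*) {τ : Type*} (I : Ideal (MvPolynomial τ k)) :
    Ideal (MvPolynomial (σ ⊕ τ) k) :=
  Ideal.map (rename Sum.inr : MvPolynomial τ k →ₐ[k] MvPolynomial (σ ⊕ τ) k) I

theorem rename_inr_mem_extIdeal {I : Ideal (MvPolynomial τ k)} {f : MvPolynomial τ k}
    (hf : f ∈ I) : rename Sum.inr f ∈ extIdeal σ I :=
  Ideal.mem_map_of_mem _ hf

/-- Elements of the extended ideal vanish at `(a, y)` for `y` on the cone of `I`. -/
theorem eval_eq_zero_of_mem_extIdeal {I : Ideal (MvPolynomial τ k)} {F : MvPolynomial (σ ⊕ τ) k}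
    (hF : F ∈ extIdeal σ I) (a : σ → k) {y : τ → k} (hy : ∀ f ∈ I, eval y f = 0) :
    eval (Sum.elim a y) F = 0 := by
  have hle : extIdeal σ I ≤ RingHom.ker (eval (Sum.elim a y)) := by
    unfold extIdeal
    rw [Ideal.map_le_iff_le_comap]
    intro f hf
    rw [Ideal.mem_comap, RingHom.mem_ker]
    have : eval (Sum.elim a y) (rename Sum.inr f) = eval y f := by
      rw [eval_rename]
      rfl
    rw [← hy f hf, ← this]
  exact hle hF

theorem extIdeal_isHomogeneous {I : Ideal (MvPolynomial τ k)} (hI : H500.HomIdeal I) :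
    (extIdeal σ I).IsHomogeneous (weightedHomogeneousSubmodule k (biw σ τ)) := by
  classical
  set S : Set (MvPolynomial (σ ⊕ τ) k) :=
    {g | ∃ f ∈ I, ∃ m : ℕ, f.IsHomogeneous m ∧ g = rename Sum.inr f} with hS
  have hspan : extIdeal σ I = Ideal.span S := by
    apply le_antisymm
    · unfold extIdeal
      rw [Ideal.map_le_iff_le_comap]
      intro f hf
      rw [Ideal.mem_comap]
      have hsum : f = ∑ n ∈ Finset.range (f.totalDegree + 1), homogeneousComponent n f :=
        (sum_homogeneousComponent f).symm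
      have : (rename Sum.inr : MvPolynomial τ k →ₐ[k] MvPolynomial (σ ⊕ τ) k) f =
          ∑ n ∈ Finset.range (f.totalDegree + 1), rename Sum.inr (homogeneousComponent n f) := by
        conv_lhs => rw [hsum]
        rw [map_sum]
      change (rename Sum.inr : MvPolynomial τ k →ₐ[k] MvPolynomial (σ ⊕ τ) k) f ∈ Ideal.span S
      rw [this]
      refine Ideal.sum_mem _ fun n _ => Ideal.subset_span ?_
      exact ⟨homogeneousComponent n f, hI f hf n, n, homogeneousComponent_isHomogeneous n f, rfl⟩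
    · rw [Ideal.span_le]
      rintro g ⟨f, hf, m, -, rfl⟩
      exact rename_inr_mem_extIdeal hf
  rw [hspan]
  refine Ideal.homogeneous_span _ _ ?_
  rintro g ⟨f, hf, m, hm, rfl⟩
  exact ⟨(0, m), (mem_weightedHomogeneousSubmodule k _ _ _).2 (isBihom_rename_inr hm)⟩

/-- **Bihomogeneous projective Nullstellensatz certificate.**  Let `I` be a homogeneous ideal of
`k[y]` and `p j` bihomogeneous polynomials of bidegree `(N₁, N₂)` in `(a, y)` such that, over some
algebraically closed extension `L`, every common zero `(a, y)` with `y` on the cone of `I` has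
`a = 0` or `y = 0`.  Then there are `M` and bihomogeneous `q ((s, t), j)` of bidegree `(M, M)`
with `∑ j, q ((s, t), j) * p j ≡ a_s ^ (M + N₁) * y_t ^ (M + N₂)` modulo the extension of `I`. -/
theorem exists_bicertificate [Finite σ] [Finite τ] [Fintype ι'] (L : Type*) [Field L]
    [Algebra k L] [IsAlgClosed L] (I : Ideal (MvPolynomial τ k)) (hI : H500.HomIdeal I)
    {N₁ N₂ : ℕ} (p : ι' → MvPolynomial (σ ⊕ τ) k) (hp : ∀ j, IsBihom (p j) N₁ N₂)
    (h0 : ∀ (a : σ → L) (y : τ → L), (∀ f ∈ I, aeval y f = 0) →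
      (∀ j, aeval (Sum.elim a y) (p j) = 0) → a = 0 ∨ y = 0) :
    ∃ (M : ℕ) (q : (σ × τ) × ι' → MvPolynomial (σ ⊕ τ) k), (∀ i, IsBihom (q i) M M) ∧
      ∀ s t, (∑ j, q ((s, t), j) * p j) -
        X (Sum.inl s) ^ (M + N₁) * X (Sum.inr t) ^ (M + N₂) ∈ extIdeal σ I := by
  classical
  set J : Ideal (MvPolynomial (σ ⊕ τ) k) := extIdeal σ I ⊔ Ideal.span (Set.range p) with hJ
  have hrad : ∀ st : σ × τ,
      (X (Sum.inl st.1) * X (Sum.inr st.2) : MvPolynomial (σ ⊕ τ) k) ∈ J.radical := by
    rintro ⟨s, t⟩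
    rw [← vanishingIdeal_zeroLocus_eq_radical (K := L) J, mem_vanishingIdeal_iff]
    intro x hx
    have hxe : x = Sum.elim (x ∘ Sum.inl) (x ∘ Sum.inr) := (Sum.elim_comp_inl_inr x).symm
    have h1 : ∀ f ∈ I, aeval (x ∘ Sum.inr) f = 0 := by
      intro f hf
      have := hx (rename Sum.inr f) (Ideal.mem_sup_left (rename_inr_mem_extIdeal hf))
      rwa [aeval_rename] at this
    have h2 : ∀ j, aeval (Sum.elim (x ∘ Sum.inl) (x ∘ Sum.inr)) (p j) = 0 := by
      intro j
      rw [← hxe]
      exact hx (p j) (Ideal.mem_sup_right (Ideal.subset_span ⟨j, rfl⟩))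
    rcases h0 _ _ h1 h2 with ha | hy
    · have : x (Sum.inl s) = 0 := congrFun ha s
      simp [this]
    · have : x (Sum.inr t) = 0 := congrFun hy t
      simp [this]
  choose e he using hrad
  obtain ⟨M, hM⟩ : ∃ M : ℕ, ∀ st, e st ≤ M := by
    obtain ⟨M, hM⟩ := (Set.finite_range e).bddAbove
    exact ⟨M, fun i => hM ⟨i, rfl⟩⟩
  have hXJ : ∀ s t, (X (Sum.inl s) ^ (M + N₁) * X (Sum.inr t) ^ (M + N₂) :
      MvPolynomial (σ ⊕ τ) k) ∈ J := by
    intro s t
    have h1 : (X (Sum.inl s) ^ (M + N₁) * X (Sum.inr t) ^ (M + N₂) : MvPolynomial (σ ⊕ τ) k) =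
        (X (Sum.inl s) ^ (M - e (s, t) + N₁) * X (Sum.inr t) ^ (M - e (s, t) + N₂)) *
          (X (Sum.inl s) * X (Sum.inr t)) ^ e (s, t) := by
      have := hM (s, t)
      rw [mul_pow, mul_mul_mul_comm, ← pow_add, ← pow_add]
      congr 2 <;> omega
    rw [h1]
    exact Ideal.mul_mem_left _ _ (he (s, t))
  have hdec : ∀ st : σ × τ, ∃ (f : MvPolynomial (σ ⊕ τ) k) (c : ι' → MvPolynomial (σ ⊕ τ) k),
      f ∈ extIdeal σ I ∧
      f + ∑ j, c j * p j = X (Sum.inl st.1) ^ (M + N₁) * X (Sum.inr st.2) ^ (M + N₂) := by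
    rintro ⟨s, t⟩
    obtain ⟨f, hf, g, hg, hfg⟩ := Submodule.mem_sup.mp (hXJ s t)
    obtain ⟨c, hc⟩ := (Ideal.mem_span_range_iff_exists_fun).mp hg
    exact ⟨f, c, hf, by rw [hc]; exact hfg⟩
  choose f c hf hfc using hdec
  refine ⟨M, fun a => weightedHomogeneousComponent (biw σ τ) (M, M) (c a.1 a.2),
    fun a => weightedHomogeneousComponent_isWeightedHomogeneous _ _, fun s t => ?_⟩
  have h1 := congrArg (weightedHomogeneousComponent (biw σ τ) ((M, M) + (N₁, N₂))) (hfc (s, t))
  rw [map_add, map_sum] at h1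
  simp_rw [weightedHomogeneousComponent_add_mul (biw σ τ) (M, M) _ (hp _)] at h1
  have hmono : IsBihom (X (Sum.inl s) ^ (M + N₁) * X (Sum.inr t) ^ (M + N₂) :
      MvPolynomial (σ ⊕ τ) k) (M + N₁) (M + N₂) := by
    have h1 := IsWeightedHomogeneous.pow (isBihom_X_inl (R := k) (τ := τ) s) (M + N₁)
    have h2 := IsWeightedHomogeneous.pow (isBihom_X_inr (R := k) (σ := σ) t) (M + N₂)
    have := IsWeightedHomogeneous.mul h1 h2
    simpa [IsBihom] using this
  have h2 : weightedHomogeneousComponent (biw σ τ) ((M, M) + (N₁, N₂))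
      (X (Sum.inl s) ^ (M + N₁) * X (Sum.inr t) ^ (M + N₂) : MvPolynomial (σ ⊕ τ) k) =
      X (Sum.inl s) ^ (M + N₁) * X (Sum.inr t) ^ (M + N₂) :=
    weightedHomogeneousComponent_of_mem hmono |>.trans (by simp)
  rw [h2] at h1
  have h3 : (∑ j, weightedHomogeneousComponent (biw σ τ) (M, M) (c (s, t) j) * p j) -
      X (Sum.inl s) ^ (M + N₁) * X (Sum.inr t) ^ (M + N₂) =
      -weightedHomogeneousComponent (biw σ τ) ((M, M) + (N₁, N₂)) (f (s, t)) := by
    rw [← h1]; ring
  simp only
  rw [h3]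
  exact (extIdeal σ I).neg_mem
    (weightedHomogeneousComponent_mem_of_mem k (biw σ τ) (extIdeal_isHomogeneous hI)
      (hf (s, t)) _)

/-- The certificate of `exists_bicertificate`, evaluated at the `k`-points. -/
theorem exists_bicertificate_eval [Finite σ] [Finite τ] [Fintype ι'] (L : Type*) [Field L]
    [Algebra k L] [IsAlgClosed L] (I : Ideal (MvPolynomial τ k)) (hI : H500.HomIdeal I)
    {N₁ N₂ : ℕ} (p : ι' → MvPolynomial (σ ⊕ τ) k) (hp : ∀ j, IsBihom (p j) N₁ N₂)
    (h0 : ∀ (a : σ → L) (y : τ → L), (∀ f ∈ I, aeval y f = 0) →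
      (∀ j, aeval (Sum.elim a y) (p j) = 0) → a = 0 ∨ y = 0) :
    ∃ (M : ℕ) (q : (σ × τ) × ι' → MvPolynomial (σ ⊕ τ) k), (∀ i, IsBihom (q i) M M) ∧
      ∀ (a : σ → k) (y : τ → k), (∀ f ∈ I, eval y f = 0) → ∀ s t,
        ∑ j, eval (Sum.elim a y) (q ((s, t), j)) * eval (Sum.elim a y) (p j) =
          a s ^ (M + N₁) * y t ^ (M + N₂) := by
  obtain ⟨M, q, hq, hqI⟩ := exists_bicertificate L I hI p hp h0
  refine ⟨M, q, hq, fun a y hy s t => ?_⟩
  have := eval_eq_zero_of_mem_extIdeal (hqI s t) a hy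
  simpa [sub_eq_zero] using this

/-- The constant of a bihomogeneous certificate. -/
def bicertBound [Fintype ι'] (v : AbsoluteValue k ℝ)
    (q : (σ × τ) × ι' → MvPolynomial (σ ⊕ τ) k) : ℝ :=
  sumBound v (Fintype.card ι') * ⨆ i, polyBound v (q i)

theorem bicertBound_le_one [Finite σ] [Finite τ] [Fintype ι'] {v : AbsoluteValue k ℝ}
    (hv : IsNonarchimedean v) {q : (σ × τ) × ι' → MvPolynomial (σ ⊕ τ) k}
    (h : ∀ i s, v (coeff s (q i)) ≤ 1) : bicertBound v q ≤ 1 := by
  unfold bicertBound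
  rw [sumBound_of_isNonarchimedean hv, one_mul]
  rcases isEmpty_or_nonempty ((σ × τ) × ι')
  · simp
  · exact ciSup_le fun a => polyBound_le_one hv (h a)

/-- **Local bihomogeneous Nullstellensatz bound**, for EVERY absolute value `v`:
`|a|_v ^ N₁ * |y|_v ^ N₂ ≤ bicertBound v q * max_j |p j (a, y)|_v`. -/
theorem locNorm_mul_le_of_bicertificate [Finite σ] [Finite τ] [Fintype ι']
    (v : AbsoluteValue k ℝ) {M N₁ N₂ : ℕ} {q : (σ × τ) × ι' → MvPolynomial (σ ⊕ τ) k}
    (hq : ∀ i, IsBihom (q i) M M) (p : ι' → MvPolynomial (σ ⊕ τ) k) {a : σ → k} {y : τ → k}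
    (ha : a ≠ 0) (hy : y ≠ 0)
    (h : ∀ s t, ∑ j, eval (Sum.elim a y) (q ((s, t), j)) * eval (Sum.elim a y) (p j) =
      a s ^ (M + N₁) * y t ^ (M + N₂)) :
    locNorm v a ^ N₁ * locNorm v y ^ N₂ ≤
      bicertBound v q * locNorm v (fun j => eval (Sum.elim a y) (p j)) := by
  have hA : 0 < locNorm v a := locNorm_pos v ha
  have hB : 0 < locNorm v y := locNorm_pos v hy
  have hne1 : Nonempty σ := by
    by_contra hemp
    rw [not_nonempty_iff] at hemp
    exact ha (funext fun i => hemp.elim i)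
  have hne2 : Nonempty τ := by
    by_contra hemp
    rw [not_nonempty_iff] at hemp
    exact hy (funext fun i => hemp.elim i)
  obtain ⟨s, hs⟩ := exists_eq_locNorm v a
  obtain ⟨t, ht⟩ := exists_eq_locNorm v y
  have hQ : ∀ i, polyBound v (q i) ≤ ⨆ i, polyBound v (q i) := fun i =>
    Finite.le_ciSup (fun i => polyBound v (q i)) i
  have hQ0 : 0 ≤ ⨆ i, polyBound v (q i) := Real.iSup_nonneg fun _ => polyBound_nonneg _ _
  set P := locNorm v (fun j => eval (Sum.elim a y) (p j)) with hP
  have hP0 : 0 ≤ P := locNorm_nonneg _ _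
  set D := locNorm v a ^ M * locNorm v y ^ M with hD
  have hD0 : 0 < D := mul_pos (pow_pos hA _) (pow_pos hB _)
  have hterm : ∀ j, v (eval (Sum.elim a y) (q ((s, t), j)) * eval (Sum.elim a y) (p j)) ≤
      (⨆ i, polyBound v (q i)) * D * P := by
    intro j
    rw [v.map_mul]
    have h1 : v (eval (Sum.elim a y) (q ((s, t), j))) ≤ (⨆ i, polyBound v (q i)) * D :=
      (eval_le_of_isBihom v (hq _) a y).trans (mul_le_mul_of_nonneg_right (hQ _) hD0.le)
    have h2 : v (eval (Sum.elim a y) (p j)) ≤ P :=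
      le_locNorm v (fun j => eval (Sum.elim a y) (p j)) j
    exact mul_le_mul h1 h2 (v.nonneg _) (mul_nonneg hQ0 hD0.le)
  have key : locNorm v a ^ (M + N₁) * locNorm v y ^ (M + N₂) ≤
      sumBound v (Fintype.card ι') * ((⨆ i, polyBound v (q i)) * D * P) := by
    have h3 : locNorm v a ^ (M + N₁) * locNorm v y ^ (M + N₂) =
        v (∑ j, eval (Sum.elim a y) (q ((s, t), j)) * eval (Sum.elim a y) (p j)) := by
      rw [h s t, v.map_mul, v.map_pow, v.map_pow, hs, ht]
    rw [h3]
    exact abv_sum_le v _ (mul_nonneg (mul_nonneg hQ0 hD0.le) hP0) hterm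
  have key' : D * (locNorm v a ^ N₁ * locNorm v y ^ N₂) ≤ D * (bicertBound v q * P) := by
    refine le_trans (le_of_eq ?_) (key.trans (le_of_eq ?_))
    · rw [hD, pow_add, pow_add]; ring
    · unfold bicertBound
      ring
  exact le_of_mul_le_mul_left key' hD0

/-- Local upper bound for a family of bihomogeneous forms. -/
theorem locNorm_eval_le_of_isBihom [Finite σ] [Finite τ] [Finite ι'] (v : AbsoluteValue k ℝ)
    {N₁ N₂ : ℕ} {p : ι' → MvPolynomial (σ ⊕ τ) k} (hp : ∀ j, IsBihom (p j) N₁ N₂) (a : σ → k)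
    (y : τ → k) :
    locNorm v (fun j => eval (Sum.elim a y) (p j)) ≤
      (⨆ j, polyBound v (p j)) * (locNorm v a ^ N₁ * locNorm v y ^ N₂) := by
  have hAB : 0 ≤ locNorm v a ^ N₁ * locNorm v y ^ N₂ :=
    mul_nonneg (pow_nonneg (locNorm_nonneg _ _) _) (pow_nonneg (locNorm_nonneg _ _) _)
  refine locNorm_le v _ (mul_nonneg (Real.iSup_nonneg fun _ => polyBound_nonneg _ _) hAB)
    fun j => ?_
  exact (eval_le_of_isBihom v (hp j) a y).trans
    (mul_le_mul_of_nonneg_right (Finite.le_ciSup (fun j => polyBound v (p j)) j) hAB)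

/-- **Local bihomogeneous Nullstellensatz bounds for a global family.**  If the bihomogeneous
forms `p j (a, y)` of bidegree `(N₁, N₂)` have no common zero `(a, y)` with `a ≠ 0`, `y ≠ 0`, `y`
on the cone of the homogeneous ideal `I`, then there are constants `C w ≥ 1`, equal to `1` for
almost all `w`, with
`|a|_w ^ N₁ * |y|_w ^ N₂ ≤ C w * max_j |p j (a, y)|_w ≤ C w ^ 2 * |a|_w ^ N₁ * |y|_w ^ N₂`
for all `a ≠ 0` and all nonzero `k`-points `y` of the cone. -/
theorem exists_local_constants_bihom {W : Type*} {v : W → AbsoluteValue k ℝ}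
    (hv : IsGlobalFamily v) [Finite σ] [Finite τ] [Fintype ι'] (L : Type*) [Field L]
    [Algebra k L] [IsAlgClosed L] (I : Ideal (MvPolynomial τ k)) (hI : H500.HomIdeal I)
    {N₁ N₂ : ℕ} (p : ι' → MvPolynomial (σ ⊕ τ) k) (hp : ∀ j, IsBihom (p j) N₁ N₂)
    (h0 : ∀ (a : σ → L) (y : τ → L), (∀ f ∈ I, aeval y f = 0) →
      (∀ j, aeval (Sum.elim a y) (p j) = 0) → a = 0 ∨ y = 0) :
    ∃ C : W → ℝ, (∀ w, 1 ≤ C w) ∧ {w | C w ≠ 1}.Finite ∧
      ∀ (w : W) (a : σ → k) (y : τ → k), a ≠ 0 → y ≠ 0 → (∀ f ∈ I, eval y f = 0) →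
        locNorm (v w) a ^ N₁ * locNorm (v w) y ^ N₂ ≤
          C w * locNorm (v w) (fun j => eval (Sum.elim a y) (p j)) ∧
        locNorm (v w) (fun j => eval (Sum.elim a y) (p j)) ≤
          C w * (locNorm (v w) a ^ N₁ * locNorm (v w) y ^ N₂) := by
  classical
  obtain ⟨M, q, hq, hcert⟩ := exists_bicertificate_eval L I hI p hp h0
  refine ⟨fun w => max 1 (max (bicertBound (v w) q) (⨆ j, polyBound (v w) (p j))),
    fun w => le_max_left _ _, ?_, fun w a y ha hy hyI => ⟨?_, ?_⟩⟩
  · have h1 := hv.finite_not_integral q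
    have h2 := hv.finite_not_integral p
    refine (h1.union h2).subset fun w hw => ?_
    simp only [Set.mem_ofPred_eq] at hw
    by_contra hcon
    simp only [Set.mem_union, Set.mem_ofPred_eq, not_or, not_not] at hcon
    obtain ⟨⟨hna, hq1⟩, ⟨-, hp1⟩⟩ := hcon
    apply hw
    refine max_eq_left (max_le (bicertBound_le_one hna hq1) ?_)
    rcases isEmpty_or_nonempty ι'
    · simp
    · exact ciSup_le fun j => polyBound_le_one hna (hp1 j)
  · refine (locNorm_mul_le_of_bicertificate (v w) hq p ha hy (hcert a y hyI)).trans ?_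
    exact mul_le_mul_of_nonneg_right ((le_max_left _ _).trans (le_max_right _ _))
      (locNorm_nonneg _ _)
  · refine (locNorm_eval_le_of_isBihom (v w) hp a y).trans ?_
    exact mul_le_mul_of_nonneg_right ((le_max_right _ _).trans (le_max_right _ _))
      (mul_nonneg (pow_nonneg (locNorm_nonneg _ _) _) (pow_nonneg (locNorm_nonneg _ _) _))

/-- Logarithmic form of `exists_local_constants_bihom`. -/
theorem exists_local_log_constants_bihom {W : Type*} {v : W → AbsoluteValue k ℝ}
    (hv : IsGlobalFamily v) [Finite σ] [Finite τ] [Fintype ι'] (L : Type*) [Field L]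
    [Algebra k L] [IsAlgClosed L] (I : Ideal (MvPolynomial τ k)) (hI : H500.HomIdeal I)
    {N₁ N₂ : ℕ} (p : ι' → MvPolynomial (σ ⊕ τ) k) (hp : ∀ j, IsBihom (p j) N₁ N₂)
    (h0 : ∀ (a : σ → L) (y : τ → L), (∀ f ∈ I, aeval y f = 0) →
      (∀ j, aeval (Sum.elim a y) (p j) = 0) → a = 0 ∨ y = 0) :
    ∃ c : W → ℝ, (∀ w, 0 ≤ c w) ∧ {w | c w ≠ 0}.Finite ∧
      ∀ (w : W) (a : σ → k) (y : τ → k), a ≠ 0 → y ≠ 0 → (∀ f ∈ I, eval y f = 0) →
        0 < locNorm (v w) (fun j => eval (Sum.elim a y) (p j)) ∧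
        |Real.log (locNorm (v w) (fun j => eval (Sum.elim a y) (p j))) -
          (N₁ * Real.log (locNorm (v w) a) + N₂ * Real.log (locNorm (v w) y))| ≤ c w := by
  obtain ⟨C, hC1, hCfin, hC⟩ := exists_local_constants_bihom hv L I hI p hp h0
  refine ⟨fun w => Real.log (C w), fun w => Real.log_nonneg (hC1 w), ?_,
    fun w a y ha hy hyI => ?_⟩
  · refine hCfin.subset fun w hw => ?_
    simp only [Set.mem_ofPred_eq] at hw ⊢
    intro h1
    rw [h1, Real.log_one] at hw
    exact hw rfl
  · obtain ⟨hlow, hupp⟩ := hC w a y ha hy hyI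
    have hCpos : 0 < C w := lt_of_lt_of_le zero_lt_one (hC1 w)
    have hA : 0 < locNorm (v w) a ^ N₁ := pow_pos (locNorm_pos _ ha) _
    have hB : 0 < locNorm (v w) y ^ N₂ := pow_pos (locNorm_pos _ hy) _
    have hAB : 0 < locNorm (v w) a ^ N₁ * locNorm (v w) y ^ N₂ := mul_pos hA hB
    have hPpos : 0 < locNorm (v w) (fun j => eval (Sum.elim a y) (p j)) := by
      by_contra hcon
      have hle : locNorm (v w) (fun j => eval (Sum.elim a y) (p j)) ≤ 0 := not_lt.1 hcon
      have : locNorm (v w) a ^ N₁ * locNorm (v w) y ^ N₂ ≤ 0 :=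
        hlow.trans (mul_nonpos_of_nonneg_of_nonpos hCpos.le hle)
      exact absurd hAB (not_lt.2 this)
    refine ⟨hPpos, ?_⟩
    have e1 : Real.log (locNorm (v w) a ^ N₁ * locNorm (v w) y ^ N₂) =
        N₁ * Real.log (locNorm (v w) a) + N₂ * Real.log (locNorm (v w) y) := by
      rw [Real.log_mul hA.ne' hB.ne', Real.log_pow, Real.log_pow]
    have l1 := Real.log_le_log hAB hlow
    have l2 := Real.log_le_log hPpos hupp
    rw [Real.log_mul hCpos.ne' hPpos.ne'] at l1
    rw [Real.log_mul hCpos.ne' hAB.ne'] at l2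
    rw [e1] at l1 l2
    rw [abs_le]
    constructor <;> linarith

end certificate

end bihom

end Fermat.Agent.S17.H590
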